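import Fermat.Agent.Lib.WCheb.Defs

/-!
# Weak Chebotarev, A0 : the number of prime ideals of norm `p` is at most the degree
-/

set_option autoImplicit false
set_option linter.deprecated false

namespace Fermat.Agent.Lib.WCheb

open NumberField Ideal

/-- there are finitely many prime ideals of norm `p` -/
lemma finite_c1 (K : Type*) [Field K] [NumberField K] (p : ℕ) :
    Finite {q : Ideal (𝓞 K) // q.IsPrime ∧ absNorm q = p} := by
  have h1 : {q : Ideal (𝓞 K) | q.IsPrime ∧ absNorm q = p}.Finite :=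
    (Ideal.finite_setOfPred_absNorm_eq (S := 𝓞 K) p).subset (fun _ hq => hq.2)
  exact h1.to_subtype

/-- a prime ideal of norm `p` lies over `(p)` -/
lemma liesOver_of_absNorm_eq {K : Type*} [Field K] [NumberField K] {p : ℕ} (hp : p.Prime)
    {q : Ideal (𝓞 K)} (hq : q.IsPrime) (hN : absNorm q = p) :
    q.LiesOver (Ideal.span {(p : ℤ)}) := by
  have : Fact p.Prime := ⟨hp⟩
  have hmax : (Ideal.span {(p : ℤ)}).IsMaximal := Int.ideal_span_isMaximal_of_prime p
  constructor
  have hle : Ideal.span {(p : ℤ)} ≤ q.under ℤ := by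
    rw [Ideal.span_le, Set.singleton_subset_iff, SetLike.mem_coe, Ideal.mem_comap]
    have := q.absNorm_mem
    rw [hN] at this
    simpa using this
  have hne : q.under ℤ ≠ ⊤ := (Ideal.IsPrime.under ℤ q).ne_top
  exact hmax.eq_of_le hne hle

theorem c1_le (K : Type*) [Field K] [NumberField K] (p : ℕ) (hp : p.Prime) :
    c1 K p ≤ Module.finrank ℚ K := by
  have : Fact p.Prime := ⟨hp⟩
  have hmax : (Ideal.span {(p : ℤ)}).IsMaximal := Int.ideal_span_isMaximal_of_prime p
  have hp0 : Ideal.span {(p : ℤ)} ≠ ⊥ := by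
    rw [Ne, Ideal.span_singleton_eq_bot]
    exact_mod_cast hp.ne_zero
  refine le_trans ?_ (Ideal.card_primesOverFinset_le_finrank (𝓞 K) ℚ K hp0)
  unfold c1
  rw [← Fintype.card_coe, ← Nat.card_eq_fintype_card]
  refine Nat.card_le_card_of_injective
    (fun q => ⟨q.1, ?_⟩) ?_
  · rw [IsDedekindDomain.mem_primesOverFinset_iff hp0]
    exact ⟨q.2.1, liesOver_of_absNorm_eq hp q.2.1 q.2.2⟩
  · intro a b h
    have h' : a.1 = b.1 := by simpa using h
    exact Subtype.ext h'

end Fermat.Agent.Lib.WCheb
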