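import Fermat.Agent.Lib.WCheb.Defs

/-!
# Weak Chebotarev: the combinatorial induction over divisors
-/

set_option autoImplicit false

namespace Fermat.Agent.Lib.WCheb

open Filter Topology

namespace Comb

theorem bddNear_zero : BddNear (fun _ => (0 : ℝ)) :=
  ⟨0, Eventually.of_forall fun _ => by simp⟩

theorem bddNear_add {f g : ℝ → ℝ} (hf : BddNear f) (hg : BddNear g) :
    BddNear (fun s => f s + g s) := by
  obtain ⟨A, hA⟩ := hf
  obtain ⟨B, hB⟩ := hg
  refine ⟨A + B, ?_⟩
  filter_upwards [hA, hB] with s h1 h2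
  exact (abs_add_le _ _).trans (add_le_add h1 h2)

theorem bddNear_neg {f : ℝ → ℝ} (hf : BddNear f) : BddNear (fun s => - f s) := by
  obtain ⟨A, hA⟩ := hf
  refine ⟨A, ?_⟩
  filter_upwards [hA] with s h1
  rwa [abs_neg]

theorem bddNear_sub {f g : ℝ → ℝ} (hf : BddNear f) (hg : BddNear g) :
    BddNear (fun s => f s - g s) := by
  simpa [sub_eq_add_neg] using bddNear_add hf (bddNear_neg hg)

theorem bddNear_sum {ι : Type*} (t : Finset ι) (f : ι → ℝ → ℝ) (h : ∀ i ∈ t, BddNear (f i)) :
    BddNear (fun s => ∑ i ∈ t, f i s) := by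
  classical
  induction t using Finset.induction_on with
  | empty => simpa using bddNear_zero
  | insert a t ha ih =>
    have h1 := bddNear_add (h a (Finset.mem_insert_self a t))
      (ih fun i hi => h i (Finset.mem_insert_of_mem hi))
    refine (iff_of_eq ?_).1 h1
    congr 1
    funext s
    rw [Finset.sum_insert ha]

theorem bddNear_congr {f g : ℝ → ℝ} (hf : BddNear f) (h : ∀ s, 1 < s → f s = g s) :
    BddNear g := by
  obtain ⟨A, hA⟩ := hf
  refine ⟨A, ?_⟩
  filter_upwards [hA, eventually_mem_nhdsWithin] with s h1 h2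
  rwa [← h s h2]

theorem tendsto_lam : Tendsto lam (𝓝[>] (1 : ℝ)) atTop := by
  unfold lam
  refine Real.tendsto_log_atTop.comp ?_
  have h1 : Tendsto (fun s : ℝ => s - 1) (𝓝[>] (1 : ℝ)) (𝓝[>] (0 : ℝ)) := by
    refine tendsto_nhdsWithin_iff.2 ⟨?_, ?_⟩
    · have : Tendsto (fun s : ℝ => s - 1) (𝓝 (1 : ℝ)) (𝓝 (1 - 1)) :=
        (continuous_id.sub continuous_const).tendsto 1
      rw [sub_self] at this
      exact this.mono_left nhdsWithin_le_nhds
    · filter_upwards [eventually_mem_nhdsWithin] with s hs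
      exact sub_pos.2 (Set.mem_Ioi.1 hs)
  have h2 := tendsto_inv_nhdsGT_zero.comp h1
  refine h2.congr fun s => ?_
  simp

theorem summable_term (a : Nat.Primes → ℝ) (U : ℝ) (ha : ∀ p, |a p| ≤ U) {s : ℝ} (hs : 1 < s) :
    Summable (fun p : Nat.Primes => a p * ((p : ℕ) : ℝ) ^ (-s)) := by
  have h0 : Summable (fun p : Nat.Primes => ((p : ℕ) : ℝ) ^ (-s)) :=
    Nat.Primes.summable_rpow.2 (by linarith)
  refine Summable.of_norm_bounded (h0.mul_left U) fun p => ?_
  rw [norm_mul, Real.norm_eq_abs, Real.norm_eq_abs,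
    abs_of_nonneg (Real.rpow_nonneg (Nat.cast_nonneg _) _)]
  exact mul_le_mul_of_nonneg_right (ha p) (Real.rpow_nonneg (Nat.cast_nonneg _) _)

end Comb

open Comb in
theorem comb (n : ℕ) (hn : 0 < n) (o u : Nat.Primes → ℕ) (U : ℕ) (hu : ∀ p, u p ≤ U)
    (h : ∀ m, m ∣ n →
      BddNear (fun s => pSum (fun p => if o p ∣ m then (u p : ℝ) else 0) s - m * lam s))
    (S : Finset Nat.Primes) : ∃ p, p ∉ S ∧ o p = n ∧ 0 < u p := by
  classical
  set R : ℕ → ℝ → ℝ := fun d s => pSum (fun p => if o p = d then (u p : ℝ) else 0) s with hR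
  have hbd : ∀ (d : ℕ) (p : Nat.Primes), |(if o p = d then (u p : ℝ) else 0)| ≤ (U : ℝ) := by
    intro d p
    split_ifs
    · rw [abs_of_nonneg (Nat.cast_nonneg _)]
      exact_mod_cast hu p
    · simp
  -- decomposition over divisors
  have hdec : ∀ m : ℕ, m ≠ 0 → ∀ s : ℝ, 1 < s →
      pSum (fun p => if o p ∣ m then (u p : ℝ) else 0) s = ∑ d ∈ m.divisors, R d s := by
    intro m hm s hs
    simp only [hR, pSum]
    rw [← Summable.tsum_finsetSum fun d _ => summable_term _ U (hbd d) hs]
    refine tsum_congr fun p => ?_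
    rw [← Finset.sum_mul, Finset.sum_ite_eq]
    simp [Nat.mem_divisors, hm]
  -- induction
  have hind : ∀ m : ℕ, m ∣ n → BddNear (fun s => R m s - (Nat.totient m : ℝ) * lam s) := by
    intro m
    induction m using Nat.strong_induction_on with
    | _ m ih =>
      intro hmn
      have hm0 : m ≠ 0 := by
        rintro rfl
        exact hn.ne' (Nat.eq_zero_of_zero_dvd hmn)
      have h1 := h m hmn
      have h2 : BddNear (fun s => ∑ d ∈ m.properDivisors,
          (R d s - (Nat.totient d : ℝ) * lam s)) := by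
        refine bddNear_sum _ _ fun d hd => ?_
        rw [Nat.mem_properDivisors] at hd
        exact ih d hd.2 (hd.1.trans hmn)
      refine bddNear_congr (bddNear_sub h1 h2) fun s hs => ?_
      rw [hdec m hm0 s hs, ← Nat.insert_self_properDivisors hm0,
        Finset.sum_insert Nat.self_notMem_properDivisors, Finset.sum_sub_distrib,
        ← Finset.sum_mul]
      have h3 : (m : ℝ) = (Nat.totient m : ℝ) + ∑ d ∈ m.properDivisors, (Nat.totient d : ℝ) := by
        have := Nat.sum_totient m
        rw [← Nat.insert_self_properDivisors hm0,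
          Finset.sum_insert Nat.self_notMem_properDivisors] at this
        exact_mod_cast this.symm
      rw [h3]
      ring
  by_contra hcon
  push Not at hcon
  obtain ⟨B, hB⟩ := hind n dvd_rfl
  have hφ : (1 : ℝ) ≤ (Nat.totient n : ℝ) := by
    exact_mod_cast Nat.totient_pos.2 hn
  -- upper bound for `R n`
  have hup : ∀ s : ℝ, 1 < s → R n s ≤ (S.card : ℝ) * U := by
    intro s hs
    simp only [hR, pSum]
    rw [tsum_eq_sum (s := S)]
    · calc ∑ p ∈ S, (if o p = n then (u p : ℝ) else 0) * ((p : ℕ) : ℝ) ^ (-s)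
          ≤ ∑ _p ∈ S, (U : ℝ) := by
            refine Finset.sum_le_sum fun p _ => ?_
            have h1 : ((p : ℕ) : ℝ) ^ (-s) ≤ 1 := by
              refine Real.rpow_le_one_of_one_le_of_nonpos ?_ (by linarith)
              exact_mod_cast p.2.one_lt.le
            have h2 : (0 : ℝ) ≤ ((p : ℕ) : ℝ) ^ (-s) := Real.rpow_nonneg (Nat.cast_nonneg _) _
            have h3 := (abs_le.1 (hbd n p)).2
            have h4 : (0 : ℝ) ≤ U := Nat.cast_nonneg _
            calc (if o p = n then (u p : ℝ) else 0) * ((p : ℕ) : ℝ) ^ (-s)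
                ≤ (U : ℝ) * ((p : ℕ) : ℝ) ^ (-s) := mul_le_mul_of_nonneg_right h3 h2
              _ ≤ (U : ℝ) * 1 := mul_le_mul_of_nonneg_left h1 h4
              _ = U := mul_one _
        _ = (S.card : ℝ) * U := by simp
    · intro p hp
      by_cases hop : o p = n
      · have := hcon p hp hop
        have hu0 : u p = 0 := by omega
        simp [hu0]
      · simp [hop]
  have hev := (tendsto_lam.eventually_gt_atTop (B + (S.card : ℝ) * U))
  obtain ⟨s, h1, h2, h3⟩ := (hB.and (hev.and eventually_mem_nhdsWithin)).exists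
  have h4 := hup s h3
  have h5 := (abs_le.1 h1).1
  have hB0 : 0 ≤ B := (abs_nonneg _).trans h1
  have hc0 : (0 : ℝ) ≤ (S.card : ℝ) * U := by positivity
  have hl0 : 0 < lam s := by linarith
  nlinarith
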