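import Mathlib

/-!
# Weak Chebotarev (theorem of Frobenius): definitions

`c1 K p` : number of prime ideals of norm `p` of the number field `K`.
`lam s = log (1 / (s - 1))`.
`BddNear f` : `f s` stays bounded when `s` tends to `1` from the right.
-/

set_option autoImplicit false

namespace Fermat.Agent.Lib.WCheb

open NumberField Ideal Filter Topology

/-- number of prime ideals of norm `p` -/
noncomputable def c1 (K : Type*) [Field K] [NumberField K] (p : ℕ) : ℕ :=
  Nat.card {q : Ideal (𝓞 K) // q.IsPrime ∧ absNorm q = p}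

/-- the comparison function `log (1/(s-1))` -/
noncomputable def lam (s : ℝ) : ℝ := Real.log (1 / (s - 1))

/-- `f` is bounded near `1` from the right. -/
def BddNear (f : ℝ → ℝ) : Prop := ∃ B : ℝ, ∀ᶠ s in 𝓝[>] (1 : ℝ), |f s| ≤ B

/-- the Dirichlet sum over rational primes with coefficients `a` -/
noncomputable def pSum (a : Nat.Primes → ℝ) (s : ℝ) : ℝ :=
  ∑' p : Nat.Primes, a p * ((p : ℕ) : ℝ) ^ (-s)

end Fermat.Agent.Lib.WCheb
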