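import Fermat.Agent.Lib.WCheb.Defs

/-!
# Weak Chebotarev, B2: the prime below `P` in `L^H` has norm `p` iff the Frobenius lies in `H`
-/

set_option autoImplicit false

namespace Fermat.Agent.Lib.WCheb

open NumberField Ideal Filter Topology
open scoped Pointwise

section alg

variable (L : Type*) [Field L] [NumberField L] [IsGalois ℚ L]

/-- `H` is a Galois group for `L / L^H`. -/
theorem isGaloisGroup_fixedField (H : Subgroup Gal(L/ℚ)) :
    IsGaloisGroup H (IntermediateField.fixedField H) L :=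
  IsGaloisGroup.of_fixedPoints_eq Gal(L/ℚ) ℚ L H _ rfl

/-- `H` is a Galois group for the rings of integers of `L / L^H`. -/
theorem isGaloisGroup_ringOfIntegers_fixedField (H : Subgroup Gal(L/ℚ)) :
    IsGaloisGroup H (𝓞 (IntermediateField.fixedField H)) (𝓞 L) :=
  have := isGaloisGroup_fixedField L H
  IsGaloisGroup.of_isFractionRing H (𝓞 (IntermediateField.fixedField H)) (𝓞 L)
    (IntermediateField.fixedField H) L

omit [NumberField L] [IsGalois ℚ L] in
/-- The residue field of `ℤ` below a prime containing `p` has `p` elements. -/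
theorem card_quotient_under_int (p : ℕ) (hp : p.Prime) (P : Ideal (𝓞 L)) [P.IsPrime]
    (hpP : (p : 𝓞 L) ∈ P) : Nat.card (ℤ ⧸ P.under ℤ) = p := by
  have h1 : Ideal.span {(p : ℤ)} ≤ P.under ℤ := by
    rw [Ideal.span_singleton_le_iff_mem, Ideal.mem_comap]
    simpa using hpP
  have hmax : (Ideal.span {(p : ℤ)}).IsMaximal :=
    PrincipalIdealRing.isMaximal_of_irreducible
      (Nat.prime_iff_prime_int.mp hp).irreducible
  have h2 : P.under ℤ ≠ ⊤ := (Ideal.IsPrime.under ℤ P).ne_top
  have h3 : Ideal.span {(p : ℤ)} = P.under ℤ := hmax.eq_of_le h2 h1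
  rw [← h3, Nat.card_congr (Int.quotientSpanNatEquivZMod p).toEquiv, Nat.card_zmod]

/-- A finite field of characteristic `p` in which `x ^ p = x` identically has `p` elements. -/
theorem card_eq_of_forall_pow_eq (k : Type*) [Field k] [Finite k] (p : ℕ) [CharP k p]
    (h : ∀ x : k, x ^ p = x) : Nat.card k = p := by
  classical
  cases nonempty_fintype k
  obtain ⟨n, hp, hn⟩ := FiniteField.card k p
  rw [Nat.card_eq_fintype_card]
  apply le_antisymm
  · have hne : (Polynomial.X ^ p - Polynomial.X : Polynomial k) ≠ 0 :=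
      FiniteField.X_pow_card_sub_X_ne_zero k hp.one_lt
    have hsub : (Finset.univ : Finset k).val ⊆
        (Polynomial.X ^ p - Polynomial.X : Polynomial k).roots := by
      intro x _
      rw [Polynomial.mem_roots hne]
      simp [h x]
    have := Polynomial.card_le_degree_of_subset_roots hsub
    rwa [FiniteField.X_pow_card_sub_X_natDegree_eq k hp.one_lt, Finset.card_univ] at this
  · rw [hn]
    exact Nat.le_self_pow n.ne_zero p

theorem absNorm_under_eq_iff (H : Subgroup Gal(L/ℚ)) (p : ℕ) (hp : p.Prime)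
    (P : Ideal (𝓞 L)) [P.IsPrime] (hpP : (p : 𝓞 L) ∈ P)
    [Algebra.IsUnramifiedAt ℤ P] (φ : Gal(L/ℚ)) (hφ : IsArithFrobAt ℤ φ P) :
    absNorm (P.under (𝓞 (IntermediateField.fixedField H))) = p ↔ φ ∈ H := by
  have hN := card_quotient_under_int L p hp P hpP
  set K := IntermediateField.fixedField H with hK
  set q := P.under (𝓞 K) with hq
  have hGG := isGaloisGroup_ringOfIntegers_fixedField L H
  have hcard : absNorm q = Nat.card (𝓞 K ⧸ q) := by
    rw [Ideal.absNorm_apply, Submodule.cardQuot_apply]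
  have hP0 : P ≠ ⊥ := by
    rintro rfl
    have : (p : 𝓞 L) = 0 := by simpa using hpP
    exact hp.ne_zero (by exact_mod_cast this)
  have hfinP : Finite (𝓞 L ⧸ P) := Ideal.finiteQuotientOfFreeOfNeBot P hP0
  constructor
  · intro hqp
    obtain ⟨ψ, hψ⟩ := IsArithFrobAt.exists_of_isInvariant (𝓞 K) H P
    have hψ' : IsArithFrobAt ℤ (ψ : Gal(L/ℚ)) P := by
      intro x
      have := hψ x
      rw [← hq, ← hcard, hqp] at this
      rw [hN]
      exact this
    have heq := AlgHom.IsArithFrobAt.eq_of_isUnramifiedAt hφ hψ' (by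
      intro x hx
      exact mem_nonZeroDivisors_of_ne_zero (fun h0 => hx (h0 ▸ P.zero_mem)))
    have hfaith : FaithfulSMul Gal(L/ℚ) (𝓞 L) := IsGaloisGroup.faithful ℤ
    have : φ = (ψ : Gal(L/ℚ)) := by
      apply hfaith.eq_of_smul_eq_smul
      intro x
      exact DFunLike.congr_fun heq x
    rw [this]
    exact ψ.2
  · intro hφH
    have hqprime : q.IsPrime := Ideal.IsPrime.under (𝓞 K) P
    have hpq : (p : 𝓞 K) ∈ q := by
      rw [hq, Ideal.mem_comap]
      simpa using hpP
    have hq0 : q ≠ ⊥ := by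
      intro h0
      rw [h0] at hpq
      have : (p : 𝓞 K) = 0 := by simpa using hpq
      exact hp.ne_zero (by exact_mod_cast this)
    have hqmax : q.IsMaximal := hqprime.isMaximal hq0
    let _ : Field (𝓞 K ⧸ q) := Ideal.Quotient.field q
    have hfin : Finite (𝓞 K ⧸ q) := Ideal.finiteQuotientOfFreeOfNeBot q hq0
    have hchar : CharP (𝓞 K ⧸ q) p := by
      have h0 : ((p : ℕ) : 𝓞 K ⧸ q) = 0 := by
        have := Ideal.Quotient.eq_zero_iff_mem.mpr hpq
        simpa using this
      exact (CharP.charP_iff_prime_eq_zero hp).mpr h0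
    rw [hcard]
    apply card_eq_of_forall_pow_eq
    intro x
    obtain ⟨a, rfl⟩ := Ideal.Quotient.mk_surjective x
    rw [← map_pow, Ideal.Quotient.eq, hq, Ideal.mem_comap, map_sub, map_pow]
    have h1 := hφ (algebraMap (𝓞 K) (𝓞 L) a)
    rw [hN] at h1
    have h2 : (MulSemiringAction.toAlgHom ℤ (𝓞 L) φ) (algebraMap (𝓞 K) (𝓞 L) a)
        = algebraMap (𝓞 K) (𝓞 L) a := by
      have := hGG.commutes
      have h3 := smul_algebraMap (⟨φ, hφH⟩ : H) a (A := 𝓞 L)
      exact h3
    rw [h2] at h1
    rw [← neg_sub]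
    exact P.neg_mem h1

end alg

end Fermat.Agent.Lib.WCheb
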