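import Fermat.Agent.Lib.WCheb.Defs
import Fermat.Agent.S14.Analytic.Key
import Fermat.Agent.S14.Analytic.NonPrimeNorm

/-!
# Weak Chebotarev, A1 (owner helper110): the sum of `N(q)^(-s)` over the prime ideals of prime norm
is `log (1/(s-1)) + O(1)` as `s → 1+`.
-/

set_option autoImplicit false

namespace Fermat.Agent.Lib.WCheb

open NumberField Ideal Filter Topology
open scoped nonZeroDivisors
open Fermat.Agent.S14.Analytic

namespace IdealPrimeSum

variable (K : Type*) [Field K] [NumberField K]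

/-- prime ideals of prime norm, as nonzero ideals. -/
def emb (q : {q : Ideal (𝓞 K) // q.IsPrime ∧ (absNorm q).Prime}) : (Ideal (𝓞 K))⁰ :=
  ⟨q.1, mem_nonZeroDivisors_iff_ne_zero.mpr (by
    intro h
    have h2 := q.2.2
    rw [h] at h2
    simp [Nat.not_prime_zero] at h2)⟩

lemma emb_injective : Function.Injective (emb K) := by
  intro a b h
  exact Subtype.ext (congrArg (fun I : (Ideal (𝓞 K))⁰ => (I : Ideal (𝓞 K))) h)

/-- being a prime ideal of prime norm. -/
def IsP1 (I : (Ideal (𝓞 K))⁰) : Prop :=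
  (I : Ideal (𝓞 K)).IsPrime ∧ (absNorm (I : Ideal (𝓞 K))).Prime

open Classical in
/-- the summand, extended by zero to all nonzero ideals. -/
noncomputable def g (s : ℝ) (I : (Ideal (𝓞 K))⁰) : ℝ := if IsP1 K I then term K s I else 0

lemma g_nonneg (s : ℝ) (I : (Ideal (𝓞 K))⁰) : 0 ≤ g K s I := by
  unfold g
  split_ifs
  · exact (term_pos K s I).le
  · exact le_rfl

lemma summable_g {s : ℝ} (hs : 1 < s) : Summable (g K s) := summable_good hs (IsP1 K)

lemma tsum_eq (s : ℝ) :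
    ∑' q : {q : Ideal (𝓞 K) // q.IsPrime ∧ (absNorm q).Prime}, ((absNorm q.1 : ℕ) : ℝ) ^ (-s) =
      ∑' I, g K s I := by
  rw [← (emb_injective K).tsum_eq (f := g K s)]
  · refine tsum_congr fun q => ?_
    have : IsP1 K (emb K q) := q.2
    rw [g, if_pos this]
    rfl
  · intro I hI
    have : IsP1 K I := by
      by_contra h
      exact hI (by simp [g, h])
    exact ⟨⟨I.1, this⟩, rfl⟩

/-! ### the upper bound -/

lemma le_log_inv {t : ℝ} (h1 : t < 1) : t ≤ Real.log (1 - t)⁻¹ := by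
  rw [Real.log_inv]
  have := Real.log_le_sub_one_of_pos (show 0 < 1 - t by linarith)
  linarith

lemma zetaSum_pos {s : ℝ} (hs : 1 < s) : 0 < zetaSum K s := by
  have := prod_inv_le_zetaSum (K := K) hs ∅ (by simp)
  simp only [Finset.prod_empty] at this
  linarith

lemma sum_term_le_log {s : ℝ} (hs : 1 < s) (T : Finset (Ideal (𝓞 K))⁰)
    (hT : ∀ q ∈ T, (q : Ideal (𝓞 K)).IsPrime) :
    ∑ q ∈ T, term K s q ≤ Real.log (zetaSum K s) := by
  have hpos : ∀ q ∈ T, 0 < (1 - term K s q)⁻¹ := fun q hq =>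
    inv_pos.mpr (one_sub_term_pos hs q (hT q hq))
  calc ∑ q ∈ T, term K s q ≤ ∑ q ∈ T, Real.log (1 - term K s q)⁻¹ :=
        Finset.sum_le_sum fun q hq => le_log_inv (by
          have := one_sub_term_pos hs q (hT q hq)
          linarith)
    _ = Real.log (∏ q ∈ T, (1 - term K s q)⁻¹) :=
        (Real.log_prod fun q hq => (hpos q hq).ne').symm
    _ ≤ Real.log (zetaSum K s) :=
        Real.log_le_log (Finset.prod_pos hpos) (prod_inv_le_zetaSum hs T hT)

lemma tsum_g_le_log {s : ℝ} (hs : 1 < s) : ∑' I, g K s I ≤ Real.log (zetaSum K s) := by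
  classical
  refine (summable_g K hs).tsum_le_of_sum_le fun T => ?_
  have : ∑ I ∈ T, g K s I = ∑ I ∈ T.filter (IsP1 K), term K s I := by
    rw [Finset.sum_filter]
    refine Finset.sum_congr rfl fun I _ => ?_
    unfold g
    congr
  rw [this]
  exact sum_term_le_log K hs _ fun q hq => (Finset.mem_filter.mp hq).2.1

/-! ### the lower bound -/

lemma inv_one_sub_le_exp' {t : ℝ} (h0 : 0 ≤ t) (h1 : t ≤ 1 / 2) :
    (1 - t)⁻¹ ≤ Real.exp (t + 2 * t ^ 2) := by
  have h2 : (1 - t)⁻¹ ≤ 1 + t + 2 * t ^ 2 := by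
    rw [inv_le_iff_one_le_mul₀ (by linarith)]
    nlinarith [mul_nonneg (mul_nonneg h0 h0) (show 0 ≤ 1 - 2 * t by linarith)]
  have h3 := Real.add_one_le_exp (t + 2 * t ^ 2)
  linarith

lemma exists_prime_dvd (I : (Ideal (𝓞 K))⁰) (hI : I ≠ 1) :
    ∃ q : (Ideal (𝓞 K))⁰, (q : Ideal (𝓞 K)).IsPrime ∧ q ∣ I := by
  have hI' : (I : Ideal (𝓞 K)) ≠ ⊤ := by
    intro h
    apply hI
    apply Subtype.ext
    rw [h, Submonoid.coe_one, Ideal.one_eq_top]
  obtain ⟨M, hM, hIM⟩ := Ideal.exists_le_maximal _ hI'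
  have hM0 : M ≠ ⊥ := by
    rintro rfl
    exact nonZeroDivisors.coe_ne_zero I (le_bot_iff.mp hIM)
  refine ⟨⟨M, mem_nonZeroDivisors_iff_ne_zero.mpr hM0⟩, hM.isPrime, ?_⟩
  rw [nonZeroDivisors_dvd_iff_dvd_coe]
  exact Ideal.dvd_iff_le.mpr hIM

/-- a finite set of primes whose Euler factors exhaust `ζ` up to a factor `2`. -/
lemma exists_finset_le_two {s : ℝ} (hs : 1 < s) :
    ∃ T : Finset (Ideal (𝓞 K))⁰, (∀ q ∈ T, (q : Ideal (𝓞 K)).IsPrime) ∧
      (∏ q ∈ T, (1 - term K s q)) * zetaSum K s ≤ 2 := by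
  classical
  obtain ⟨F₀, hF₀⟩ := ((tendsto_tsum_compl_atTop_zero (term K s)).eventually
    (gt_mem_nhds one_pos)).exists
  have hfin : {q : (Ideal (𝓞 K))⁰ | (q : Ideal (𝓞 K)).IsPrime ∧ ∃ I ∈ F₀, q ∣ I}.Finite := by
    refine (Set.Finite.biUnion F₀.finite_toSet (fun I _ ↦ finite_dvd I)).subset ?_
    rintro q ⟨_, I, hI, hq⟩
    exact Set.mem_biUnion hI hq
  refine ⟨hfin.toFinset, fun q hq ↦ ((hfin.mem_toFinset).mp hq).1, ?_⟩
  set T := hfin.toFinset with hTdef
  have hT : ∀ q ∈ T, (q : Ideal (𝓞 K)).IsPrime := fun q hq ↦ ((hfin.mem_toFinset).mp hq).1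
  rw [real_factor hs T hT]
  have hs1 : Summable fun I : (Ideal (𝓞 K))⁰ => if I = 1 then (1 : ℝ) else 0 :=
    summable_of_hasFiniteSupport ((Set.finite_singleton (1 : (Ideal (𝓞 K))⁰)).subset (by
      intro I hI
      by_contra h
      exact hI (by simp [show I ≠ 1 from h])))
  have hs2 : Summable (Set.indicator {x : (Ideal (𝓞 K))⁰ | x ∉ F₀} (term K s)) :=
    (summable_term K hs).indicator _
  have htail : ∑' I, Set.indicator {x : (Ideal (𝓞 K))⁰ | x ∉ F₀} (term K s) I < 1 := by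
    rw [← tsum_subtype {x : (Ideal (𝓞 K))⁰ | x ∉ F₀} (term K s)]
    exact hF₀
  have h1 : (∑' I : (Ideal (𝓞 K))⁰, if I = 1 then (1 : ℝ) else 0) = 1 := tsum_ite_eq 1 _
  refine le_trans (Summable.tsum_le_tsum (g := fun I : (Ideal (𝓞 K))⁰ =>
    (if I = 1 then (1 : ℝ) else 0) + Set.indicator {x | x ∉ F₀} (term K s) I) ?_
    ?_ (hs1.add hs2)) ?_
  · intro I
    have hind : 0 ≤ Set.indicator {x | x ∉ F₀} (term K s) I :=
      Set.indicator_nonneg (fun I _ => (term_pos K s I).le) I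
    by_cases hg : ∀ q ∈ T, ¬ (q ∣ I)
    · rw [if_pos hg]
      by_cases hI1 : I = 1
      · rw [if_pos hI1, hI1, term_one]
        rw [hI1] at hind
        linarith
      · rw [if_neg hI1, zero_add]
        have hIF : I ∉ F₀ := by
          intro hIF
          obtain ⟨q, hq, hqI⟩ := exists_prime_dvd K I hI1
          exact hg q ((hfin.mem_toFinset).mpr ⟨hq, I, hIF, hqI⟩) hqI
        rw [Set.indicator_of_mem (show I ∈ {x | x ∉ F₀} from hIF)]
    · rw [if_neg hg]
      have : (0 : ℝ) ≤ if I = 1 then (1 : ℝ) else 0 := by split_ifs <;> norm_num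
      linarith
  · refine Summable.of_nonneg_of_le (fun I ↦ ?_) (fun I ↦ ?_) (summable_term K hs)
    · split_ifs
      · exact (term_pos K s I).le
      · exact le_rfl
    · split_ifs
      · exact le_rfl
      · exact (term_pos K s I).le
  · rw [hs1.tsum_add hs2, h1]
    linarith

lemma term_sq_le {s : ℝ} (hs : 1 ≤ s) (I : (Ideal (𝓞 K))⁰) : term K s I ^ 2 ≤ term K 2 I := by
  have h1 : term K s I ≤ term K 1 I := term_anti K hs I
  have h0 := (term_pos K s I).le
  have h2 : term K 1 I ^ 2 = term K 2 I := by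
    unfold term
    rw [← Real.rpow_natCast, ← Real.rpow_mul (Nat.cast_nonneg _)]
    norm_num
  rw [← h2]
  exact pow_le_pow_left₀ h0 h1 2

/-- the product of the Euler factors at primes of prime norm. -/
lemma prod_P1_le {s : ℝ} (hs : 1 < s) (T : Finset (Ideal (𝓞 K))⁰) (hT : ∀ q ∈ T, IsP1 K q) :
    ∏ q ∈ T, (1 - term K s q)⁻¹ ≤ Real.exp ((∑' I, g K s I) + 2 * zetaSum K 2) := by
  have h1 : ∑ q ∈ T, term K s q ≤ ∑' I, g K s I := by
    have : ∑ q ∈ T, term K s q = ∑ q ∈ T, g K s q :=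
      Finset.sum_congr rfl fun q hq => by rw [g, if_pos (hT q hq)]
    rw [this]
    exact (summable_g K hs).sum_le_tsum T fun I _ => g_nonneg K s I
  have h2 : ∑ q ∈ T, term K s q ^ 2 ≤ zetaSum K 2 :=
    le_trans (Finset.sum_le_sum fun q _ => term_sq_le K hs.le q)
      ((summable_term K one_lt_two).sum_le_tsum T fun I _ => (term_pos K 2 I).le)
  calc ∏ q ∈ T, (1 - term K s q)⁻¹
      ≤ ∏ q ∈ T, Real.exp (term K s q + 2 * term K s q ^ 2) := by
        apply Finset.prod_le_prod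
        · intro q hq
          exact (inv_pos.mpr (one_sub_term_pos hs q (hT q hq).1)).le
        · intro q hq
          exact inv_one_sub_le_exp' (term_pos K s q).le
            (term_le_half K hs.le q (hT q hq).1.ne_top)
    _ = Real.exp (∑ q ∈ T, term K s q + 2 * ∑ q ∈ T, term K s q ^ 2) := by
        rw [← Real.exp_sum, Finset.sum_add_distrib, Finset.mul_sum]
    _ ≤ _ := Real.exp_le_exp.mpr (by linarith)

lemma exists_log_le : ∃ C : ℝ, ∀ s : ℝ, 1 < s →
    Real.log (zetaSum K s) ≤ (∑' I, g K s I) + C := by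
  classical
  obtain ⟨B, hB1, hB⟩ := prod_nonprime_norm_bounded K
  refine ⟨2 * zetaSum K 2 + Real.log B + Real.log 2, fun s hs => ?_⟩
  obtain ⟨T, hT, h2⟩ := exists_finset_le_two K hs
  have hpos : 0 < ∏ q ∈ T, (1 - term K s q) :=
    Finset.prod_pos fun q hq ↦ one_sub_term_pos hs q (hT q hq)
  have hz : zetaSum K s ≤ 2 * ∏ q ∈ T, (1 - term K s q)⁻¹ := by
    rw [Finset.prod_inv_distrib, ← div_eq_mul_inv, le_div_iff₀ hpos]
    linarith
  have hsplit := Finset.prod_filter_mul_prod_filter_not T (IsP1 K) (fun q => (1 - term K s q)⁻¹)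
  have hA := prod_P1_le K hs (T.filter (IsP1 K)) fun q hq => (Finset.mem_filter.mp hq).2
  have hN := hB (T.filter fun q => ¬ IsP1 K q) (fun q hq => by
    have h := Finset.mem_filter.mp hq
    exact ⟨hT q h.1, fun hp => h.2 ⟨hT q h.1, hp⟩⟩) s hs.le
  have hN0 : 0 ≤ ∏ q ∈ T.filter (fun q => ¬ IsP1 K q), (1 - term K s q)⁻¹ :=
    Finset.prod_nonneg fun q hq =>
      (inv_pos.mpr (one_sub_term_pos hs q (hT q (Finset.mem_filter.mp hq).1))).le
  have hfin : zetaSum K s ≤ 2 * (Real.exp ((∑' I, g K s I) + 2 * zetaSum K 2) * B) := by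
    refine hz.trans ?_
    rw [← hsplit]
    exact mul_le_mul_of_nonneg_left (mul_le_mul hA hN hN0 (Real.exp_pos _).le) (by norm_num)
  have hB0 : 0 < B := by linarith
  calc Real.log (zetaSum K s)
      ≤ Real.log (2 * (Real.exp ((∑' I, g K s I) + 2 * zetaSum K 2) * B)) :=
        Real.log_le_log (zetaSum_pos K hs) hfin
    _ = (∑' I, g K s I) + (2 * zetaSum K 2 + Real.log B + Real.log 2) := by
        rw [Real.log_mul (by norm_num) (mul_pos (Real.exp_pos _) hB0).ne',
          Real.log_mul (Real.exp_pos _).ne' hB0.ne', Real.log_exp]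
        ring

lemma bddNear_log_zeta : BddNear (fun s => Real.log (zetaSum K s) - lam s) := by
  have hρ := dedekindZeta_residue_pos K
  have h := (Real.continuousAt_log hρ.ne').tendsto.comp (tendsto_zetaSum K)
  have hev : ∀ᶠ s in 𝓝[>] (1 : ℝ),
      |Real.log ((s - 1) * zetaSum K s) - Real.log (dedekindZeta_residue K)| < 1 := by
    have := (Metric.tendsto_nhds.mp h) 1 one_pos
    simpa [Real.dist_eq] using this
  refine ⟨|Real.log (dedekindZeta_residue K)| + 1, ?_⟩
  filter_upwards [hev, self_mem_nhdsWithin] with s hs hs1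
  have hs1' : (1 : ℝ) < s := hs1
  have e : Real.log (zetaSum K s) - lam s = Real.log ((s - 1) * zetaSum K s) := by
    rw [lam, one_div, Real.log_inv, Real.log_mul (by linarith) (zetaSum_pos K hs1').ne']
    ring
  rw [e]
  have := abs_sub_abs_le_abs_sub (Real.log ((s - 1) * zetaSum K s))
    (Real.log (dedekindZeta_residue K))
  linarith

end IdealPrimeSum

open IdealPrimeSum

/-- summability of the prime ideal sum. -/
theorem summable_idealPrimeSum (K : Type*) [Field K] [NumberField K] {s : ℝ} (hs : 1 < s) :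
    Summable fun q : {q : Ideal (𝓞 K) // q.IsPrime ∧ (absNorm q).Prime} =>
      ((absNorm q.1 : ℕ) : ℝ) ^ (-s) := by
  have h := (summable_term K hs).comp_injective (emb_injective K)
  refine h.congr fun q => ?_
  rfl

theorem idealPrimeSum_asymp (K : Type*) [Field K] [NumberField K] :
    BddNear (fun s => (∑' q : {q : Ideal (𝓞 K) // q.IsPrime ∧ (absNorm q).Prime},
      ((absNorm q.1 : ℕ) : ℝ) ^ (-s)) - lam s) := by
  obtain ⟨C, hC⟩ := exists_log_le K
  obtain ⟨B, hB⟩ := bddNear_log_zeta K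
  refine ⟨B + |C|, ?_⟩
  filter_upwards [hB, self_mem_nhdsWithin] with s hs hs1
  have hs1' : (1 : ℝ) < s := hs1
  rw [tsum_eq]
  have h1 := tsum_g_le_log K hs1'
  have h2 := hC s hs1'
  have h3 := abs_le.mp hs
  have h4 := le_abs_self C
  have h5 := abs_nonneg C
  rw [abs_le]
  constructor <;> linarith

end Fermat.Agent.Lib.WCheb
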