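import Fermat.Agent.Lib.WCheb.Defs

/-!
# Weak Chebotarev, B1: the decomposition group of an unramified prime is generated by Frobenius
-/

set_option autoImplicit false

namespace Fermat.Agent.Lib.WCheb

open NumberField Ideal Filter Topology
open scoped Pointwise

section alg

variable (L : Type*) [Field L] [NumberField L] [IsGalois ℚ L]

/-- iterates of a Frobenius element act as iterated `q`-th powers on the residue field. -/
theorem mk_frob_pow_smul (P : Ideal (𝓞 L)) (φ : Gal(L/ℚ)) (hφ : IsArithFrobAt ℤ φ P) (i : ℕ)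
    (x : 𝓞 L) :
    Ideal.Quotient.mk P ((φ ^ i) • x) =
      (Ideal.Quotient.mk P x) ^ (Nat.card (ℤ ⧸ P.under ℤ) ^ i) := by
  induction i generalizing x with
  | zero => simp
  | succ i ih =>
    rw [pow_succ, mul_smul, ih (φ • x)]
    have h1 : Ideal.Quotient.mk P (φ • x) = (Ideal.Quotient.mk P x) ^ Nat.card (ℤ ⧸ P.under ℤ) := by
      have := AlgHom.IsArithFrobAt.mk_apply hφ x
      simpa using this
    rw [h1, ← pow_mul, pow_succ, mul_comm]

/-- B1 : file `Stab.lean` -/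
theorem stabilizer_eq_zpowers (P : Ideal (𝓞 L)) [P.IsPrime] (hP0 : P ≠ ⊥)
    [Algebra.IsUnramifiedAt ℤ P] (φ : Gal(L/ℚ)) (hφ : IsArithFrobAt ℤ φ P) :
    MulAction.stabilizer Gal(L/ℚ) P = Subgroup.zpowers φ := by
  apply le_antisymm
  · intro τ hτ
    have hmax : P.IsMaximal := Ring.DimensionLEOne.maximalOfPrime hP0 inferInstance
    have hfin : Finite (𝓞 L ⧸ P) := finiteQuotientOfFreeOfNeBot P hP0
    have hpmax : (P.under ℤ).IsMaximal := Ideal.isMaximal_comap_of_isIntegral_of_isMaximal P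
    letI := Ideal.Quotient.field P
    letI := Ideal.Quotient.field (P.under ℤ)
    have hfin' : Finite (ℤ ⧸ P.under ℤ) := hφ.finite_quotient
    obtain ⟨c, hc⟩ := CharP.exists (ℤ ⧸ P.under ℤ)
    have hcp : Fact c.Prime := ⟨(CharP.char_is_prime_or_zero (ℤ ⧸ P.under ℤ) c).resolve_right
      (CharP.char_ne_zero_of_finite (ℤ ⧸ P.under ℤ) c)⟩
    obtain ⟨i, hi⟩ := FiniteField.exists_forall_apply_eq_pow (ℤ ⧸ P.under ℤ) c (𝓞 L ⧸ P)
      (Ideal.Quotient.stabilizerHom P (P.under ℤ) Gal(L/ℚ) ⟨τ, hτ⟩)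
    have hτmk : ∀ y : 𝓞 L, Ideal.Quotient.mk P (τ • y) =
        (Ideal.Quotient.mk P y) ^ (Nat.card (ℤ ⧸ P.under ℤ) ^ i) := by
      intro y
      have := hi (Ideal.Quotient.mk P y)
      simpa using this
    -- `ψ = τ (φ^i)⁻¹ φ` is again a Frobenius
    have hψ : IsArithFrobAt ℤ (τ * (φ ^ i)⁻¹ * φ) P := by
      intro x
      rw [← Ideal.Quotient.eq]
      have h1 : Ideal.Quotient.mk P (φ • x) =
          (Ideal.Quotient.mk P x) ^ Nat.card (ℤ ⧸ P.under ℤ) := by
        have := AlgHom.IsArithFrobAt.mk_apply hφ x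
        simpa using this
      have h2 := mk_frob_pow_smul L P φ hφ i ((φ ^ i)⁻¹ • (φ • x))
      rw [smul_inv_smul] at h2
      have h3 : (MulSemiringAction.toAlgHom ℤ (𝓞 L) (τ * (φ ^ i)⁻¹ * φ)) x
          = τ • ((φ ^ i)⁻¹ • (φ • x)) := by
        simp [mul_smul]
      rw [h3, hτmk, ← h2, h1, map_pow]
    have heq : MulSemiringAction.toAlgHom ℤ (𝓞 L) (τ * (φ ^ i)⁻¹ * φ)
        = MulSemiringAction.toAlgHom ℤ (𝓞 L) φ := by
      apply AlgHom.IsArithFrobAt.eq_of_isUnramifiedAt hψ hφ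
      intro x hx
      exact mem_nonZeroDivisors_of_ne_zero (fun h => hx (h ▸ P.zero_mem))
    haveI : FaithfulSMul Gal(L/ℚ) (𝓞 L) := (inferInstance : IsGaloisGroup Gal(L/ℚ) ℤ (𝓞 L)).faithful
    have h4 := MulSemiringAction.toAlgHom_injective ℤ (𝓞 L) heq
    have h5 : τ = φ ^ i := by
      have : τ * (φ ^ i)⁻¹ = 1 := by simpa using h4
      exact mul_inv_eq_one.mp this
    rw [h5]
    exact Subgroup.pow_mem _ (Subgroup.mem_zpowers φ) i
  · rw [Subgroup.zpowers_le]
    exact hφ.mem_stabilizer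

end alg

end Fermat.Agent.Lib.WCheb
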